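import Fermat.Agent.AcyclicOrientations.Orientations

/-!
# Colourings and orientations of the whole graph

The counts over all of the vertices are those of Mathlib's colourings and of orientations without
directed cycles.
-/

set_option autoImplicit false

noncomputable section

namespace FA.AcyclicOrientations

open Finset Polynomial
open Classical

variable {V : Type*} [Fintype V] (G : SimpleGraph V)

/-- An arrow on each edge and no directed cycle. -/
def IsAcyclicOrientation (O : Finset (V × V)) : Prop :=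
  (∀ u v, (u, v) ∈ O → G.Adj u v) ∧ (∀ u v, G.Adj u v → ((u, v) ∈ O ↔ (v, u) ∉ O)) ∧
    ∀ v, ¬Relation.TransGen (fun a b => (a, b) ∈ O) v v

theorem isAcyclicOrientation_iff (O : Finset (V × V)) :
    IsAcyclicOrientation G O ↔ IsOrient G univ O ∧ HasHeight O := by
  constructor
  · rintro ⟨h1, h2, h3⟩
    refine ⟨fun u v => ⟨fun he => ⟨mem_univ _, mem_univ _, h1 u v he⟩, fun _ _ ha => h2 u v ha⟩,
      fun v => #{a | Relation.TransGen (fun a b => (a, b) ∈ O) a v}, fun u v he => ?_⟩
    refine card_lt_card ((Finset.ssubset_iff_of_subset fun a ha => ?_).2 ⟨u, ?_, ?_⟩)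
    · simp only [mem_filter, mem_univ, true_and] at ha ⊢
      exact ha.tail he
    · simpa using Relation.TransGen.single (r := fun a b => (a, b) ∈ O) he
    · simpa using h3 u
  · rintro ⟨hO, h, hh⟩
    refine ⟨fun u v he => ((hO u v).1 he).2.2,
      fun u v ha => (hO u v).2 (mem_univ _) (mem_univ _) ha, fun v hv => ?_⟩
    have key : ∀ {a b}, Relation.TransGen (fun a b => (a, b) ∈ O) a b → h a < h b := by
      intro a b hab
      induction hab with
      | single he => exact hh _ _ he
      | tail _ he ih => exact ih.trans (hh _ _ he)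
    exact lt_irrefl _ (key hv)

omit [Fintype V] in
theorem exists_colour {c : V → ℕ} {k : ℕ} (h : ∀ v, 1 ≤ c v ∧ c v ≤ k) :
    ∃ d : V → Fin k, ∀ v, (d v : ℕ) + 1 = c v :=
  ⟨fun v => ⟨c v - 1, by have := h v; omega⟩, fun v => Nat.sub_add_cancel (h v).1⟩

theorem card_coloring_eq (k : ℕ) : Nat.card (G.Coloring (Fin k)) = #(proper G univ k) := by
  rw [← Nat.card_coe_set_eq _ |>.trans (Set.ncard_coe_finset _)]
  refine Nat.card_eq_of_bijective
    (fun C => ⟨fun v => (C v : ℕ) + 1, mem_coe.2 ((mem_proper G).2 ⟨mem_colours.2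
      ⟨fun v _ => ⟨Nat.succ_pos _, (C v).2⟩, fun v hv => absurd (mem_univ v) hv⟩,
      fun u _ v _ ha he => C.valid ha (Fin.ext (Nat.succ.inj he))⟩)⟩) ⟨fun C D h => ?_, ?_⟩
  · exact DFunLike.ext _ _ fun v => Fin.ext (Nat.succ.inj (congrFun (congrArg Subtype.val h) v))
  · rintro ⟨c, hc⟩
    obtain ⟨hcol, hp⟩ := (mem_proper G).1 (mem_coe.1 hc)
    obtain ⟨d, hd⟩ := exists_colour fun v => (mem_colours.1 hcol).1 v (mem_univ _)
    exact ⟨SimpleGraph.Coloring.mk d fun {u v} ha he =>
        hp u (mem_univ _) v (mem_univ _) ha (by rw [← hd, ← hd, he]),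
      Subtype.ext (funext hd)⟩

theorem card_compatible_eq (k : ℕ) :
    Nat.card {p : Finset (V × V) × (V → Fin k) //
      IsAcyclicOrientation G p.1 ∧ ∀ u v, (u, v) ∈ p.1 → p.2 v ≤ p.2 u} =
      #(compatible G univ k) := by
  rw [← Nat.card_coe_set_eq _ |>.trans (Set.ncard_coe_finset _)]
  refine Nat.card_eq_of_bijective
    (fun p => ⟨(p.1.1, fun v => (p.1.2 v : ℕ) + 1), mem_coe.2 ((mem_compatible G).2
      ⟨mem_colours.2 ⟨fun v _ => ⟨Nat.succ_pos _, (p.1.2 v).2⟩, fun v hv => absurd (mem_univ v) hv⟩,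
      ((isAcyclicOrientation_iff G _).1 p.2.1).1, ((isAcyclicOrientation_iff G _).1 p.2.1).2,
      fun u v he => Nat.succ_le_succ (p.2.2 u v he)⟩)⟩) ⟨fun p q h => ?_, ?_⟩
  · obtain ⟨h1, h2⟩ := Prod.ext_iff.1 (congrArg Subtype.val h)
    exact Subtype.ext (Prod.ext h1 (funext fun v => Fin.ext (Nat.succ.inj (congrFun h2 v))))
  · rintro ⟨⟨O, c⟩, hc⟩
    obtain ⟨hcol, hO, hh, hw⟩ := (mem_compatible G).1 (mem_coe.1 hc)
    obtain ⟨d, hd⟩ := exists_colour fun v => (mem_colours.1 hcol).1 v (mem_univ _)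
    refine ⟨⟨(O, d), (isAcyclicOrientation_iff G O).2 ⟨hO, hh⟩, fun u v he => Fin.le_def.2 ?_⟩,
      Subtype.ext (Prod.ext rfl (funext hd))⟩
    have := hw u v he
    have hu := hd u
    have hv := hd v
    simp only at this hu hv ⊢
    omega

theorem card_orientation_eq :
    Nat.card {O : Finset (V × V) // IsAcyclicOrientation G O} = #(compatible G univ 1) := by
  rw [← card_compatible_eq]
  refine Nat.card_eq_of_bijective
    (fun O => ⟨(O.1, fun _ => 0), O.2, fun _ _ _ => le_rfl⟩) ⟨fun O O' h => ?_, ?_⟩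
  · exact Subtype.ext (congrArg (fun p => p.1.1) h)
  · rintro ⟨⟨O, c⟩, hO, hc⟩
    exact ⟨⟨O, hO⟩, Subtype.ext (Prod.ext rfl (funext fun v => Subsingleton.elim _ _))⟩

theorem eq_chromatic {P : ℚ[X]}
    (hP : ∀ k : ℕ, P.eval (k : ℚ) = Nat.card (G.Coloring (Fin k))) :
    P = chromatic G univ := by
  refine eq_of_infinite_eval_eq _ _ ((Set.infinite_range_of_injective
    (Nat.cast_injective (R := ℚ))).mono ?_)
  rintro _ ⟨k, rfl⟩
  simp only [Set.mem_ofPred_eq, hP, chromatic_eval_nat, card_coloring_eq]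

theorem eval_neg_one {P : ℚ[X]}
    (hP : ∀ k : ℕ, P.eval (k : ℚ) = Nat.card (G.Coloring (Fin k))) :
    P.eval (-1) = (-1) ^ Fintype.card V *
      Nat.card {O : Finset (V × V) // IsAcyclicOrientation G O} := by
  have h := chromatic_eval_neg G univ 1
  rw [Nat.cast_one] at h
  rw [eq_chromatic G hP, h, card_orientation_eq, card_univ]

theorem card_orientation_top :
    Nat.card {O : Finset (V × V) // IsAcyclicOrientation (⊤ : SimpleGraph V) O} =
      (Fintype.card V).factorial := by
  set n := Fintype.card V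
  have hP : ∀ k : ℕ, (descPochhammer ℚ n).eval (k : ℚ) =
      Nat.card ((⊤ : SimpleGraph V).Coloring (Fin k)) := by
    intro k
    rw [descPochhammer_eval_eq_descFactorial]
    congr 1
    let e : (⊤ : SimpleGraph V).Coloring (Fin k) ≃ (V ↪ Fin k) :=
      { toFun := fun C => ⟨C, fun u v h => by_contra fun hne => C.valid hne h⟩
        invFun := fun f => SimpleGraph.Coloring.mk f fun ha he => ha (f.injective he)
        left_inv := fun C => rfl
        right_inv := fun f => rfl }
    rw [Nat.card_congr e, Nat.card_eq_fintype_card, Fintype.card_embedding_eq, Fintype.card_fin]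
  have hval : ∀ m : ℕ, (descPochhammer ℚ m).eval (-1) = (-1) ^ m * m.factorial := by
    intro m
    induction m with
    | zero => simp
    | succ m ih =>
      rw [descPochhammer_succ_eval, ih, Nat.factorial_succ]
      push_cast
      ring
  have h := eval_neg_one (⊤ : SimpleGraph V) hP
  rw [hval] at h
  exact_mod_cast (mul_left_cancel₀ (pow_ne_zero _ (by norm_num : (-1 : ℚ) ≠ 0)) h).symm

end FA.AcyclicOrientations
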