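import Mathlib

/-!
# Colourings of the parts of a graph

Deleting the class of the last colour gives a recursion for the number of proper colourings, so it
is a polynomial in the number of colours and satisfies the recursion at every rational number.
-/

set_option autoImplicit false

noncomputable section

namespace FA.AcyclicOrientations

open Finset Polynomial
open Classical

variable {V : Type*} [Fintype V] (G : SimpleGraph V)

/-- The independent subsets of `W`. -/
def indep (W : Finset V) : Finset (Finset V) :=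
  W.powerset.filter fun S => ∀ u ∈ S, ∀ v ∈ S, ¬G.Adj u v

/-- Maps into `1, …, k` on `W` and zero outside. -/
def colours (W : Finset V) (k : ℕ) : Finset (V → ℕ) :=
  Fintype.piFinset fun v => if v ∈ W then Icc 1 k else {0}

/-- The proper colourings of `W` with colours `1, …, k`. -/
def proper (W : Finset V) (k : ℕ) : Finset (V → ℕ) :=
  (colours W k).filter fun c => ∀ u ∈ W, ∀ v ∈ W, G.Adj u v → c u ≠ c v

theorem mem_colours {W : Finset V} {k : ℕ} {c : V → ℕ} :
    c ∈ colours W k ↔ (∀ v ∈ W, 1 ≤ c v ∧ c v ≤ k) ∧ ∀ v ∉ W, c v = 0 := by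
  rw [colours, Fintype.mem_piFinset]
  refine ⟨fun h => ⟨fun v hv => by simpa [hv] using h v, fun v hv => by simpa [hv] using h v⟩,
    fun h v => ?_⟩
  by_cases hv : v ∈ W
  · simpa [hv] using h.1 v hv
  · simpa [hv] using h.2 v hv

theorem mem_indep {W S : Finset V} :
    S ∈ indep G W ↔ S ⊆ W ∧ ∀ u ∈ S, ∀ v ∈ S, ¬G.Adj u v := by
  rw [indep, mem_filter, mem_powerset]

theorem mem_proper {W : Finset V} {k : ℕ} {c : V → ℕ} :
    c ∈ proper G W k ↔ c ∈ colours W k ∧ ∀ u ∈ W, ∀ v ∈ W, G.Adj u v → c u ≠ c v := by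
  rw [proper, mem_filter]

theorem card_proper_zero (W : Finset V) : #(proper G W 0) = if W = ∅ then 1 else 0 := by
  split_ifs with h
  · subst h
    rw [card_eq_one]
    refine ⟨0, ?_⟩
    ext c
    simp [mem_proper, mem_colours, funext_iff]
  · rw [card_eq_zero, eq_empty_iff_forall_notMem]
    intro c hc
    obtain ⟨v, hv⟩ := nonempty_iff_ne_empty.2 h
    have := (mem_colours.1 ((mem_proper G).1 hc).1).1 v hv
    omega

/-- Delete the class of the last colour. -/
theorem card_proper_succ (W : Finset V) (k : ℕ) :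
    #(proper G W (k + 1)) = ∑ S ∈ indep G W, #(proper G (W \ S) k) := by
  rw [← card_sigma]
  refine card_bij' (fun c _ => ⟨W.filter fun v => c v = k + 1,
      fun v => if c v = k + 1 then 0 else c v⟩)
    (fun p _ v => if v ∈ p.1 then k + 1 else p.2 v) ?_ ?_ ?_ ?_
  · intro c hc
    obtain ⟨hcol, hprop⟩ := (mem_proper G).1 hc
    obtain ⟨h1, h2⟩ := mem_colours.1 hcol
    refine mem_sigma.2 ⟨(mem_indep G).2 ⟨filter_subset _ _, fun u hu v hv ha => ?_⟩,
      (mem_proper G).2 ⟨mem_colours.2 ⟨fun v hv => ?_, fun v hv => ?_⟩, fun u hu v hv ha => ?_⟩⟩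
    · rw [mem_filter] at hu hv
      exact hprop u hu.1 v hv.1 ha (hu.2.trans hv.2.symm)
    · simp only [mem_sdiff, mem_filter, not_and] at hv
      have := h1 v hv.1
      have := hv.2 hv.1
      simp only [if_neg this]
      omega
    · simp only [mem_sdiff, mem_filter, not_and, not_forall, not_not] at hv
      by_cases hvW : v ∈ W
      · simp [(hv hvW).2]
      · simp [h2 v hvW]
    · simp only [mem_sdiff, mem_filter, not_and] at hu hv
      simp only [if_neg (hu.2 hu.1), if_neg (hv.2 hv.1)]
      exact hprop u hu.1 v hv.1 ha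
  · rintro ⟨S, c⟩ hp
    obtain ⟨hS, hc⟩ := mem_sigma.1 hp
    dsimp only at hS hc ⊢
    obtain ⟨hSW, hind⟩ := (mem_indep G).1 hS
    obtain ⟨hcol, hprop⟩ := (mem_proper G).1 hc
    obtain ⟨h1, h2⟩ := mem_colours.1 hcol
    refine (mem_proper G).2 ⟨mem_colours.2 ⟨fun v hv => ?_, fun v hv => ?_⟩,
      fun u hu v hv ha => ?_⟩
    · by_cases h : v ∈ S
      · simp [h]
      · have := h1 v (mem_sdiff.2 ⟨hv, h⟩)
        simp only [if_neg h]
        omega
    · simp only [if_neg (fun h => hv (hSW h))]
      exact h2 v fun h => hv (mem_sdiff.1 h).1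
    · by_cases hus : u ∈ S <;> by_cases hvs : v ∈ S
      · exact absurd ha (hind u hus v hvs)
      · have := h1 v (mem_sdiff.2 ⟨hv, hvs⟩)
        simp only [if_pos hus, if_neg hvs]
        omega
      · have := h1 u (mem_sdiff.2 ⟨hu, hus⟩)
        simp only [if_neg hus, if_pos hvs]
        omega
      · simp only [if_neg hus, if_neg hvs]
        exact hprop u (mem_sdiff.2 ⟨hu, hus⟩) v (mem_sdiff.2 ⟨hv, hvs⟩) ha
  · intro c hc
    obtain ⟨h1, h2⟩ := mem_colours.1 ((mem_proper G).1 hc).1
    funext v
    by_cases hvW : v ∈ W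
    · by_cases h : c v = k + 1 <;> simp [hvW, h]
    · simp [hvW, h2 v hvW]
  · rintro ⟨S, c⟩ hp
    obtain ⟨hS, hc⟩ := mem_sigma.1 hp
    dsimp only at hS hc ⊢
    have hSW := ((mem_indep G).1 hS).1
    obtain ⟨h1, h2⟩ := mem_colours.1 ((mem_proper G).1 hc).1
    have hlt : ∀ v, c v ≠ k + 1 := fun v h => by
      by_cases hv : v ∈ W \ S
      · have := h1 v hv; omega
      · have := h2 v hv; omega
    have e1 : (W.filter fun v => (if v ∈ S then k + 1 else c v) = k + 1) = S := by
      ext v
      by_cases h : v ∈ S <;> simp [h, hlt v, fun h' => hSW h']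
    refine Sigma.ext e1 (heq_of_eq (funext fun v => ?_))
    by_cases h : v ∈ S
    · simp [h, (h2 v fun h' => (mem_sdiff.1 h').2 h)]
    · simp [h, hlt v]

/-- Every polynomial is a difference. -/
theorem exists_difference (P : ℚ[X]) : ∃ Q : ℚ[X], ∀ x, Q.eval (x + 1) - Q.eval x = P.eval x := by
  induction P using Polynomial.induction_on' with
  | add p q hp hq =>
    obtain ⟨A, hA⟩ := hp
    obtain ⟨B, hB⟩ := hq
    refine ⟨A + B, fun x => ?_⟩
    rw [eval_add, eval_add, eval_add, ← hA x, ← hB x]
    ring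
  | monomial n a =>
    refine ⟨C (a / (n + 1)) * Polynomial.bernoulli (n + 1), fun x => ?_⟩
    simp only [eval_mul, eval_C]
    rw [add_comm x 1, Polynomial.bernoulli_eval_one_add, eval_monomial, Nat.add_sub_cancel]
    push_cast
    field_simp
    ring

theorem sum_indep_eq (W : Finset V) (f : Finset V → ℚ) :
    ∑ S ∈ indep G W, f (W \ S) = f W + ∑ S ∈ (indep G W).erase ∅, f (W \ S) := by
  have h0 : (∅ : Finset V) ∈ indep G W := (mem_indep G).2 ⟨empty_subset _, by simp⟩
  rw [← add_sum_erase _ _ h0, sdiff_empty]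

/-- The number of proper colourings is a polynomial. -/
theorem exists_polynomial (W : Finset V) :
    ∃ P : ℚ[X], ∀ k : ℕ, P.eval (k : ℚ) = #(proper G W k) := by
  induction W using Finset.strongInduction with
  | _ W ih =>
    have hsub : ∀ S ∈ (indep G W).erase ∅, W \ S ⊂ W := fun S hS => by
      rw [mem_erase, mem_indep] at hS
      exact sdiff_ssubset hS.2.1 (nonempty_iff_ne_empty.2 hS.1)
    choose! P hP using fun S hS => ih (W \ S) (hsub S hS)
    obtain ⟨Q, hQ⟩ := exists_difference (∑ S ∈ (indep G W).erase ∅, P S)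
    refine ⟨Q + C ((#(proper G W 0) : ℚ) - Q.eval 0), fun k => ?_⟩
    induction k with
    | zero => simp
    | succ k ihk =>
      simp only [eval_add, eval_C] at ihk ⊢
      have h := hQ k
      rw [eval_finsetSum, sum_congr rfl fun S hS => hP S hS k] at h
      rw [card_proper_succ, Nat.cast_sum,
        sum_indep_eq G W fun U => (#(proper G U k) : ℚ), Nat.cast_succ]
      linarith

/-- The chromatic polynomial of a part of a graph. -/
def chromatic (W : Finset V) : ℚ[X] := (exists_polynomial G W).choose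

theorem chromatic_eval_nat (W : Finset V) (k : ℕ) :
    (chromatic G W).eval (k : ℚ) = #(proper G W k) :=
  (exists_polynomial G W).choose_spec k

/-- The recursion at every number. -/
theorem chromatic_eval_add_one (W : Finset V) (x : ℚ) :
    (chromatic G W).eval (x + 1) = ∑ S ∈ indep G W, (chromatic G (W \ S)).eval x := by
  have h : (chromatic G W).comp (X + 1) = ∑ S ∈ indep G W, chromatic G (W \ S) := by
    refine eq_of_infinite_eval_eq _ _ ((Set.infinite_range_of_injective
      (Nat.cast_injective (R := ℚ))).mono ?_)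
    rintro _ ⟨k, rfl⟩
    simp only [Set.mem_ofPred_eq, eval_comp, eval_add, eval_X, eval_one, eval_finsetSum,
      ← Nat.cast_succ, chromatic_eval_nat, card_proper_succ, Nat.cast_sum]
  simpa [eval_finsetSum] using congrArg (Polynomial.eval x) h

end FA.AcyclicOrientations
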