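import Fermat.Agent.AcyclicOrientations.Colourings

/-!
# Acyclic orientations with compatible colourings

The vertices of the last colour with no arrow into them form an independent set, and deleting a
part of it leaves such a pair; the alternating sum over the parts keeps the pairs in which the last
colour is unused.
-/

set_option autoImplicit false

noncomputable section

namespace FA.AcyclicOrientations

open Finset
open Classical

variable {V : Type*} [Fintype V] (G : SimpleGraph V)

/-- An orientation of the part on `W`. -/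
def IsOrient (W : Finset V) (O : Finset (V × V)) : Prop :=
  ∀ u v, ((u, v) ∈ O → u ∈ W ∧ v ∈ W ∧ G.Adj u v) ∧
    (u ∈ W → v ∈ W → G.Adj u v → ((u, v) ∈ O ↔ (v, u) ∉ O))

/-- There is a height which increases along the arrows. -/
def HasHeight (O : Finset (V × V)) : Prop := ∃ h : V → ℕ, ∀ u v, (u, v) ∈ O → h u < h v

/-- Pairs of an acyclic orientation and a weakly compatible colouring. -/
def compatible (W : Finset V) (k : ℕ) : Finset (Finset (V × V) × (V → ℕ)) :=
  ((univ : Finset (Finset (V × V))) ×ˢ colours W k).filter fun p =>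
    IsOrient G W p.1 ∧ HasHeight p.1 ∧ ∀ u v, (u, v) ∈ p.1 → p.2 v ≤ p.2 u

/-- The vertices of the last colour with no arrow into them. -/
def free (W : Finset V) (k : ℕ) (p : Finset (V × V) × (V → ℕ)) : Finset V :=
  W.filter fun v => p.2 v = k + 1 ∧ ∀ u, (u, v) ∉ p.1

theorem mem_compatible {W : Finset V} {k : ℕ} {p : Finset (V × V) × (V → ℕ)} :
    p ∈ compatible G W k ↔ p.2 ∈ colours W k ∧
      IsOrient G W p.1 ∧ HasHeight p.1 ∧ ∀ u v, (u, v) ∈ p.1 → p.2 v ≤ p.2 u := by
  simp [compatible]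

theorem card_compatible_zero (W : Finset V) :
    #(compatible G W 0) = if W = ∅ then 1 else 0 := by
  split_ifs with h
  · subst h
    rw [card_eq_one]
    refine ⟨(∅, 0), ?_⟩
    ext ⟨O, c⟩
    simp only [mem_compatible, mem_colours, mem_singleton, Prod.mk.injEq]
    constructor
    · rintro ⟨⟨-, hc⟩, hO, -, -⟩
      exact ⟨eq_empty_iff_forall_notMem.2 fun e he => notMem_empty _ ((hO e.1 e.2).1 he).1,
        funext fun v => hc v (notMem_empty _)⟩
    · rintro ⟨rfl, rfl⟩
      simp [IsOrient, HasHeight]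
  · rw [card_eq_zero, eq_empty_iff_forall_notMem]
    intro p hp
    obtain ⟨v, hv⟩ := nonempty_iff_ne_empty.2 h
    have := (mem_colours.1 ((mem_compatible G).1 hp).1).1 v hv
    omega

theorem free_eq_empty_iff {W : Finset V} {k : ℕ} {p : Finset (V × V) × (V → ℕ)}
    (hp : p ∈ compatible G W (k + 1)) : free W k p = ∅ ↔ p ∈ compatible G W k := by
  obtain ⟨hc, hO, ⟨h, hh⟩, hw⟩ := (mem_compatible G).1 hp
  obtain ⟨h1, h2⟩ := mem_colours.1 hc
  refine ⟨fun he => (mem_compatible G).2
    ⟨mem_colours.2 ⟨fun v hv => ⟨(h1 v hv).1, ?_⟩, h2⟩, hO, ⟨h, hh⟩, hw⟩, fun hk => ?_⟩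
  · by_contra hlt
    have hne : (W.filter fun u => p.2 u = k + 1).Nonempty :=
      ⟨v, mem_filter.2 ⟨hv, by have := (h1 v hv).2; omega⟩⟩
    obtain ⟨m, hm, hmin⟩ := exists_min_image _ h hne
    rw [mem_filter] at hm
    refine (eq_empty_iff_forall_notMem.1 he m) (mem_filter.2 ⟨hm.1, hm.2, fun u hu => ?_⟩)
    have huW := ((hO u m).1 hu).1
    have h3 := hw u m hu
    have h4 := (h1 u huW).2
    have h5 := hmin u (mem_filter.2 ⟨huW, by omega⟩)
    have h6 := hh u m hu
    omega
  · refine eq_empty_iff_forall_notMem.2 fun v hv => ?_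
    rw [free, mem_filter] at hv
    have := ((mem_colours.1 ((mem_compatible G).1 hk).1).1 v hv.1).2
    omega

/-- The arrows out of `S`. -/
def arrowsFrom (W S : Finset V) : Finset (V × V) :=
  univ.filter fun e => e.1 ∈ S ∧ e.2 ∈ W ∧ G.Adj e.1 e.2

/-- Deleting a part of the free vertices, and putting it back. -/
theorem card_sigma_compatible (W : Finset V) (k : ℕ) (f : Finset V → ℚ) :
    ∑ S ∈ indep G W, f S * #(compatible G (W \ S) (k + 1)) =
      ∑ p ∈ compatible G W (k + 1), ∑ S ∈ (free W k p).powerset, f S := by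
  simp only [card_eq_sum_ones, Nat.cast_sum, Nat.cast_one, mul_sum, mul_one]
  rw [sum_sigma', sum_sigma']
  refine sum_bij'
    (fun x _ => ⟨(x.2.1 ∪ arrowsFrom G W x.1, fun v => if v ∈ x.1 then k + 1 else x.2.2 v), x.1⟩)
    (fun y _ => ⟨y.2, y.1.1.filter (fun e => e.1 ∉ y.2),
      fun v => if v ∈ y.2 then 0 else y.1.2 v⟩) ?_ ?_ ?_ ?_ (fun _ _ => rfl)
  · rintro ⟨S, O, c⟩ hx
    obtain ⟨hS, hp⟩ := mem_sigma.1 hx
    dsimp only at hS hp ⊢
    obtain ⟨hSW, hind⟩ := (mem_indep G).1 hS
    obtain ⟨hc, hO, ⟨h, hh⟩, hw⟩ := (mem_compatible G).1 hp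
    obtain ⟨h1, h2⟩ := mem_colours.1 hc
    have hOout : ∀ {u v}, (u, v) ∈ O → u ∉ S ∧ v ∉ S := fun {u v} he =>
      ⟨(mem_sdiff.1 ((hO u v).1 he).1).2, (mem_sdiff.1 ((hO u v).1 he).2.1).2⟩
    have hA : ∀ {u v}, (u, v) ∈ arrowsFrom G W S → v ∉ S := fun {u v} he hv => by
      simp only [arrowsFrom, mem_filter, mem_univ, true_and] at he
      exact hind u he.1 v hv he.2.2
    have hfree : S ⊆ free W k (O ∪ arrowsFrom G W S, fun v => if v ∈ S then k + 1 else c v) :=
      fun v hv => mem_filter.2 ⟨hSW hv, by simp [hv], fun u hu => by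
        rcases mem_union.1 hu with he | he
        · exact (hOout he).2 hv
        · exact hA he hv⟩
    refine mem_sigma.2 ⟨(mem_compatible G).2 ⟨mem_colours.2 ⟨fun v hv => ?_, fun v hv => ?_⟩,
      fun u v => ⟨fun he => ?_, fun hu hv ha => ?_⟩,
      ⟨fun v => if v ∈ S then 0 else h v + 1, fun u v he => ?_⟩, fun u v he => ?_⟩,
      mem_powerset.2 hfree⟩
    · by_cases hs : v ∈ S
      · simp [hs]
      · simpa [hs] using h1 v (mem_sdiff.2 ⟨hv, hs⟩)
    · simp only [if_neg fun hs => hv (hSW hs)]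
      exact h2 v fun h' => hv (mem_sdiff.1 h').1
    · rcases mem_union.1 he with he | he
      · obtain ⟨a, b, c⟩ := (hO u v).1 he
        exact ⟨(mem_sdiff.1 a).1, (mem_sdiff.1 b).1, c⟩
      · simp only [arrowsFrom, mem_filter, mem_univ, true_and] at he
        exact ⟨hSW he.1, he.2.1, he.2.2⟩
    · simp only [mem_union, arrowsFrom, mem_filter, mem_univ, true_and]
      by_cases hus : u ∈ S
      · have hvs : v ∉ S := fun hvs => hind u hus v hvs ha
        exact iff_of_true (Or.inr ⟨hus, hv, ha⟩) (by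
          rintro (he | he)
          · exact (hOout he).2 hus
          · exact hvs he.1)
      by_cases hvs : v ∈ S
      · refine iff_of_false ?_ (not_not.2 (Or.inr ⟨hvs, hu, ha.symm⟩))
        rintro (he | he)
        · exact (hOout he).2 hvs
        · exact hus he.1
      have := (hO u v).2 (mem_sdiff.2 ⟨hu, hus⟩) (mem_sdiff.2 ⟨hv, hvs⟩) ha
      simpa [hus, hvs] using this
    · rcases mem_union.1 he with he | he
      · simp only [if_neg (hOout he).1, if_neg (hOout he).2]
        exact Nat.succ_lt_succ (hh u v he)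
      · have hvs := hA he
        simp only [arrowsFrom, mem_filter, mem_univ, true_and] at he
        simp [he.1, hvs]
    · rcases mem_union.1 he with he | he
      · simp only [if_neg (hOout he).1, if_neg (hOout he).2]
        exact hw u v he
      · have hvs := hA he
        simp only [arrowsFrom, mem_filter, mem_univ, true_and] at he
        simpa [he.1, hvs] using (h1 v (mem_sdiff.2 ⟨he.2.1, hvs⟩)).2
  · rintro ⟨⟨O, c⟩, S⟩ hy
    obtain ⟨hp, hSf⟩ := mem_sigma.1 hy
    dsimp only at hp hSf ⊢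
    rw [mem_powerset] at hSf
    obtain ⟨hc, hO, ⟨h, hh⟩, hw⟩ := (mem_compatible G).1 hp
    obtain ⟨h1, h2⟩ := mem_colours.1 hc
    have hsrc : ∀ {u v}, v ∈ S → (u, v) ∉ O := fun {u v} hv => (mem_filter.1 (hSf hv)).2.2 u
    have hSW : S ⊆ W := fun v hv => (mem_filter.1 (hSf hv)).1
    refine mem_sigma.2 ⟨(mem_indep G).2 ⟨hSW, fun u hu v hv ha => ?_⟩, (mem_compatible G).2
      ⟨mem_colours.2 ⟨fun v hv => ?_, fun v hv => ?_⟩,
        fun u v => ⟨fun he => ?_, fun hu hv ha => ?_⟩,
        ⟨h, fun u v he => hh u v (mem_filter.1 he).1⟩, fun u v he => ?_⟩⟩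
    · exact hsrc hv (((hO u v).2 (hSW hu) (hSW hv) ha).2 (hsrc hu))
    · rw [mem_sdiff] at hv
      simpa [hv.2] using h1 v hv.1
    · by_cases hs : v ∈ S
      · simp [hs]
      · simpa [hs] using h2 v fun h' => hv (mem_sdiff.2 ⟨h', hs⟩)
    · rw [mem_filter] at he
      obtain ⟨a, b, c⟩ := (hO u v).1 he.1
      exact ⟨mem_sdiff.2 ⟨a, he.2⟩, mem_sdiff.2 ⟨b, fun hv => hsrc hv he.1⟩, c⟩
    · rw [mem_sdiff] at hu hv
      simpa [hu.2, hv.2] using (hO u v).2 hu.1 hv.1 ha
    · rw [mem_filter] at he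
      have hv : v ∉ S := fun hv => hsrc hv he.1
      simpa [he.2, hv] using hw u v he.1
  · rintro ⟨S, O, c⟩ hx
    obtain ⟨hS, hp⟩ := mem_sigma.1 hx
    dsimp only at hS hp ⊢
    obtain ⟨hc, hO, -, -⟩ := (mem_compatible G).1 hp
    refine Sigma.ext rfl (heq_of_eq (Prod.ext (Finset.ext fun e => ?_) (funext fun v => ?_)))
    · simp only [mem_filter, mem_union, arrowsFrom, mem_univ, true_and]
      refine ⟨fun he => he.1.resolve_right fun h => he.2 h.1, fun he => ⟨Or.inl he, ?_⟩⟩
      exact (mem_sdiff.1 ((hO e.1 e.2).1 he).1).2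
    · by_cases hs : v ∈ S
      · simpa [hs] using ((mem_colours.1 hc).2 v fun h' => (mem_sdiff.1 h').2 hs).symm
      · simp [hs]
  · rintro ⟨⟨O, c⟩, S⟩ hy
    obtain ⟨hp, hSf⟩ := mem_sigma.1 hy
    dsimp only at hp hSf ⊢
    rw [mem_powerset] at hSf
    obtain ⟨-, hO, -, -⟩ := (mem_compatible G).1 hp
    refine Sigma.ext (Prod.ext (Finset.ext fun ⟨u, v⟩ => ?_) (funext fun v => ?_)) (heq_of_eq rfl)
    · simp only [mem_union, mem_filter, arrowsFrom, mem_univ, true_and]
      constructor
      · rintro (he | ⟨hu, hv, ha⟩)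
        · exact he.1
        · exact ((hO u v).2 (mem_filter.1 (hSf hu)).1 hv ha).2 ((mem_filter.1 (hSf hu)).2.2 v)
      · intro he
        by_cases hu : u ∈ S
        · exact Or.inr ⟨hu, ((hO u v).1 he).2.1, ((hO u v).1 he).2.2⟩
        · exact Or.inl ⟨he, hu⟩
    · by_cases hs : v ∈ S
      · simpa [hs] using (mem_filter.1 (hSf hs)).2.1.symm
      · simp [hs]

/-- The recursion for the pairs. -/
theorem compatible_recursion (W : Finset V) (k : ℕ) :
    ∑ S ∈ indep G W, (-1 : ℚ) ^ #S * #(compatible G (W \ S) (k + 1)) = #(compatible G W k) := by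
  rw [card_sigma_compatible]
  have h : ∀ p ∈ compatible G W (k + 1), ∑ S ∈ (free W k p).powerset, (-1 : ℚ) ^ #S =
      if p ∈ compatible G W k then 1 else 0 := fun p hp => by
    have := congrArg (Int.cast : ℤ → ℚ) (sum_powerset_neg_one_pow_card (x := free W k p))
    push_cast at this
    rw [this]
    simp only [free_eq_empty_iff G hp]
  rw [sum_congr rfl h, sum_boole]
  congr 2
  ext p
  rw [mem_filter]
  refine ⟨And.right, fun hp => ⟨?_, hp⟩⟩
  obtain ⟨hc, hrest⟩ := (mem_compatible G).1 hp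
  obtain ⟨h1, h2⟩ := mem_colours.1 hc
  exact (mem_compatible G).2
    ⟨mem_colours.2 ⟨fun v hv => ⟨(h1 v hv).1, (h1 v hv).2.trans k.le_succ⟩, h2⟩, hrest⟩

/-- Stanley's reciprocity for a part of a graph. -/
theorem chromatic_eval_neg (W : Finset V) (k : ℕ) :
    (chromatic G W).eval (-(k : ℚ)) = (-1) ^ #W * #(compatible G W k) := by
  induction W using Finset.strongInduction generalizing k with
  | _ W ih =>
    induction k with
    | zero =>
      have h := chromatic_eval_nat G W 0
      rw [Nat.cast_zero] at h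
      rw [Nat.cast_zero, neg_zero, h, card_proper_zero, card_compatible_zero]
      split_ifs with hW <;> simp [hW]
    | succ k ihk =>
      have h1 := chromatic_eval_add_one G W (-((k + 1 : ℕ) : ℚ))
      rw [show -((k + 1 : ℕ) : ℚ) + 1 = -(k : ℚ) by push_cast; ring, ihk,
        ← compatible_recursion G W k, mul_sum] at h1
      have h0 : (∅ : Finset V) ∈ indep G W := (mem_indep G).2 ⟨empty_subset _, by simp⟩
      rw [← add_sum_erase _ _ h0, ← add_sum_erase _ _ h0, sdiff_empty, card_empty, pow_zero,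
        one_mul] at h1
      have h2 : ∀ S ∈ (indep G W).erase ∅, (chromatic G (W \ S)).eval (-((k + 1 : ℕ) : ℚ)) =
          (-1) ^ #W * ((-1) ^ #S * #(compatible G (W \ S) (k + 1))) := fun S hS => by
        rw [mem_erase, mem_indep] at hS
        rw [ih _ (sdiff_ssubset hS.2.1 (nonempty_iff_ne_empty.2 hS.1)), ← mul_assoc, ← pow_add]
        congr 1
        have := card_sdiff_add_card_eq_card hS.2.1
        rw [← this, add_assoc, pow_add, ← two_mul, pow_mul]
        simp
      rw [sum_congr rfl h2] at h1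
      linarith

end FA.AcyclicOrientations
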